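import Fermat.Agent.LT.A2.H593.Unfold
import Fermat.Agent.LT.A2.TopTC

/-!
# Row LT, tower A2, leaf A2.03.6 `WL.WhitSumC` (helper593) -- part 4: the leaf

OFF-MAIN.  `whitSumAtC593 : WL.WhitSumAtC` (A2.03.6b, Spec v2.1 `TopTC.lean`) and
`whitSumC_of_hasse593 : HasseNormC → WL.WhitSumC` (A2.03.6, Spec v1).

The Whittaker function `W(diag(α, 1) g)` vanishes unless `α det g` is a norm of `T(𝔸_K)`; for `g` in
`GL₂(𝔸_K)⁺` this means that `α` is a norm of `T(𝔸_K)`, i.e. (HASSE) `α = Q(p)`, `p ∈ K²`, and then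
`W(diag(α, 1) g) = ∫_{T¹(𝔸)} F g (m m_g) \bar p χT(m m_g) dm` (`torK`, `diagK`), which is unfolded
over `T¹(K)` (`tor1`, `IsMeasured`) and bounded by `vol(DT) ∑_{Q(ξ) = α} b'(ξ)`, `b'` the bound of
`IsRegular.loc_summable` on a compact set of admissible pairs (`TorusOpenC`, local compactness of
`GL₂(𝔸_K)` from tower T1).  Complete proofs, nothing assumed.
-/

set_option autoImplicit false
set_option linter.style.haveILetI false

open IsDedekindDomain NumberField AutomorphicForm MeasureTheory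
open scoped MatrixGroups Topology ENNReal Pointwise

noncomputable section

namespace Fermat.Agent.LT.A2.H593

open Fermat.Agent.LT.H130 Fermat.Agent.LT.H556 Fermat.Agent.LT.A2

variable {K : Type} [Field K] [NumberField K]

local notation "ι" => algebraMap K (A0.Adl K)

/-- The bound: the sum of `|b'|` over the fibre `Q = β`. -/
def fibSum593 (t n : K) (b' : K × K → ℝ) (β : Kˣ) : ℝ :=
  ∑' ξ : {ξ : K × K // qK593 t n ξ = (β : K)}, |b' ξ.1|

omit [NumberField K] in
theorem fibSum_nonneg593 (t n : K) (b' : K × K → ℝ) (β : Kˣ) : 0 ≤ fibSum593 t n b' β :=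
  tsum_nonneg fun _ => abs_nonneg _

omit [NumberField K] in
theorem fibSum_summable593 (t n : K) {b' : K × K → ℝ} (hb' : Summable b') :
    Summable (fibSum593 t n b') := by
  have hinj : Function.Injective
      (fun x : (Σ β : Kˣ, {ξ : K × K // qK593 t n ξ = (β : K)}) => x.2.1) := by
    rintro ⟨β, ξ, hξ⟩ ⟨β', ξ', hξ'⟩ h
    simp only at h
    subst h
    have : β = β' := Units.ext (hξ.symm.trans hξ')
    subst this
    rfl
  have h1 : Summable (fun x : (Σ β : Kˣ, {ξ : K × K // qK593 t n ξ = (β : K)}) => |b' x.2.1|) :=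
    hb'.abs.comp_injective hinj
  exact h1.sigma

/-- The norm of `χT` is `1` on the torus. -/
theorem norm_χT593 {t n : K} {χT : A0.G K → ℂ} (hχ : IsTorusChar t n χT) {m : A0.G K}
    (hm : InTorus t n m) : ‖χT m‖ = 1 := by
  obtain ⟨k, hk, hpow⟩ := hχ.fin_order
  have h1 : ‖χT m‖ ^ k = 1 := by rw [← norm_pow, hpow m hm, norm_one]
  exact (pow_eq_one_iff_of_nonneg (norm_nonneg _) hk.ne').mp h1

/-- **The bound of one term**, for `g` with an admissible partner `m_g` such that the pairs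
`(g, m₁ m_g)`, `m₁ ∈ DT`, lie in a set `P` on which `‖F · · ξ‖ ≤ b' ξ`. -/
theorem whit_bound593 {D : KData K} (hH : HasseNormAt K D.t D.n) (hG : D.Good)
    {W : A0.G K → ℂ}
    (hW : D.IsWhit W) {b' : K × K → ℝ} (hb' : Summable b') {P : Set (A0.G K × A0.G K)}
    (hP : ∀ (ξ : K × K) (p : A0.G K × A0.G K), p ∈ P → Adm D.t D.n p.1 p.2 →
      ‖D.F p.1 p.2 (ratV ξ)‖ ≤ b' ξ)
    (hfin : D.μT D.DT ≠ ⊤)
    {g mg : A0.G K} (hadm : Adm D.t D.n g mg) (hmem : ∀ m₁ ∈ D.DT, (g, m₁ * mg) ∈ P) (β : Kˣ) :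
    ‖W (rdiag593 β 1 * g)‖ ≤ (D.μT D.DT).toReal * fibSum593 D.t D.n b' β := by
  have hnn : 0 ≤ (D.μT D.DT).toReal * fibSum593 D.t D.n b' β :=
    mul_nonneg ENNReal.toReal_nonneg (fibSum_nonneg593 _ _ _ _)
  by_cases hplus : InGPlus D.t D.n (rdiag593 β 1 * g)
  swap
  · rw [hW.off _ hplus, norm_zero]; exact hnn
  obtain ⟨m', hm'⟩ := hplus
  -- HASSE: `β` is a rational norm
  have hμ : InTorus D.t D.n (m' * mg⁻¹) := inTorus_mul593 hm'.1 (inTorus_inv593 hadm.1)
  have hμdet : ((Matrix.GeneralLinearGroup.det (m' * mg⁻¹) : (A0.Adl K)ˣ) : A0.Adl K)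
      = ι (β : K) := by
    rw [map_mul, map_inv, ← hm'.2, ← hadm.2, map_mul, mul_inv_cancel_right, rdiag_det593]
    simp
  obtain ⟨y, hyrat, hydet⟩ := hH (β : K) (m' * mg⁻¹) hμ hμdet
  obtain ⟨p, hp0, rfl⟩ := exists_yel593 hyrat
  have hp : qK593 D.t D.n p = (β : K) := by
    apply ι_injective593
    rw [← yel_det593 hp0, hydet]
  -- the formula for `W`
  have hadm2 : Adm D.t D.n (rdiag593 β 1 * g) (yel593 D.t D.n p * mg) := by
    refine ⟨inTorus_mul593 (inTorus_of_rat593 hyrat) hadm.1, ?_⟩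
    rw [map_mul, map_mul, hadm.2]
    congr 1
    apply Units.ext
    rw [rdiag_det593, yel_det593 hp0, hp]
    simp
  rw [hW.formula _ _ hadm2]
  -- unfolding
  have hbound := unfold_bound593 hG.measured
    (fun m => D.F (rdiag593 β 1 * g) (m * (yel593 D.t D.n p * mg)) (1, 0)
      * D.χT (m * (yel593 D.t D.n p * mg)))
    (fun q => ENNReal.ofReal |b' (pact593 D.t D.n q (conj593 D.t p))|) (by
      intro q hq m₁ hm₁
      have hq0 : qK593 D.t D.n q ≠ 0 := by rw [hq]; exact one_ne_zero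
      have hq1 : InTorus1 D.t D.n (yel593 D.t D.n q)⁻¹ := inTorus1_inv593 (yel_tor1_593 hq)
      have hm₁T : InTorus1 D.t D.n m₁ := hG.measured.dom_sub m₁ hm₁
      have hmT : InTorus1 D.t D.n ((yel593 D.t D.n q)⁻¹ * m₁) := inTorus1_mul593 hq1 hm₁T
      have hadm₁ : Adm D.t D.n g (m₁ * mg) := adm_mul_tor1_593 hadm hm₁T
      have hcomm : (yel593 D.t D.n q)⁻¹ * m₁ * (yel593 D.t D.n p * mg)
          = yel593 D.t D.n p * ((yel593 D.t D.n q)⁻¹ * (m₁ * mg)) := by
        rw [← mul_assoc, inTorus_comm593 hmT.1 (inTorus_of_rat593 hyrat), mul_assoc, mul_assoc]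
      have hT : InTorus D.t D.n ((yel593 D.t D.n q)⁻¹ * m₁ * (yel593 D.t D.n p * mg)) :=
        inTorus_mul593 hmT.1 (inTorus_mul593 (inTorus_of_rat593 hyrat) hadm.1)
      rw [← ofReal_norm, norm_mul, norm_χT593 hG.torus hT, mul_one, hcomm,
        F_rdiag593 hG.weil (adm_mul_tor1_593 hadm₁ hq1) β hp,
        hG.weil.tor1 _ hq1 _ _ _ hadm₁, inv_inv, actV_yel593 hq0]
      exact ENNReal.ofReal_le_ofReal ((hP _ _ (hmem m₁ hm₁) hadm₁).trans (le_abs_self _)))
  -- the sum over `T¹(K)` is a part of the sum over the fibre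
  have hinj : Function.Injective
      (fun q : {q : K × K // qK593 D.t D.n q = 1} =>
        (⟨pact593 D.t D.n q.1 (conj593 D.t p), by
          rw [qK_pact593, q.2, one_mul, qK_conj593, hp]⟩ :
          {ξ : K × K // qK593 D.t D.n ξ = (β : K)})) := by
    intro q q' h
    have h' : pact593 D.t D.n q.1 (conj593 D.t p) = pact593 D.t D.n q'.1 (conj593 D.t p) :=
      congrArg Subtype.val h
    exact Subtype.ext (pact_injective593 hG.torus.irred (by rw [qK_conj593]; exact hp0) h')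
  have hsum : ∑' q : {q : K × K // qK593 D.t D.n q = 1},
      ENNReal.ofReal |b' (pact593 D.t D.n q.1 (conj593 D.t p))| * D.μT D.DT
      ≤ ENNReal.ofReal ((D.μT D.DT).toReal * fibSum593 D.t D.n b' β) := by
    rw [ENNReal.tsum_mul_right, mul_comm, ENNReal.ofReal_mul ENNReal.toReal_nonneg,
      ENNReal.ofReal_toReal hfin]
    gcongr
    rw [fibSum593, ENNReal.ofReal_tsum_of_nonneg (fun _ => abs_nonneg _) (hb'.abs.subtype _)]
    exact ENNReal.tsum_comp_le_tsum_of_injective hinj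
      (fun ξ : {ξ : K × K // qK593 D.t D.n ξ = (β : K)} => ENNReal.ofReal |b' ξ.1|)
  have hfinal := hbound.trans hsum
  rw [← ofReal_norm] at hfinal
  exact (ENNReal.ofReal_le_ofReal_iff hnn).mp hfinal

/-- `GL₂(𝔸_K)⁺` is a neighbourhood of `1` (`TorusOpenC`). -/
theorem gplus_nhds593 (hopen : WL.TorusOpenC) {t n : K} (hirr : ∀ x : K, x ^ 2 - t * x + n ≠ 0) :
    {g : A0.G K | InGPlus t n g} ∈ 𝓝 (1 : A0.G K) := by
  obtain ⟨U, hU, hUsub⟩ := hopen K t n hirr 1 1 (adm_one593 t n) Set.univ Filter.univ_mem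
  refine Filter.mem_of_superset hU fun g hg => ?_
  obtain ⟨m, -, hm⟩ := hUsub g hg
  exact ⟨m, hm⟩

/-- **The local form of the leaf**: every point has a neighbourhood on which the terms
`W(diag(α, 1) g)`, `g ∈ C`, are bounded by a summable family. -/
theorem whit_local593 (hopen : WL.TorusOpenC) {D : KData K} (hH : HasseNormAt K D.t D.n)
    (hT1 : T1.T1Out K) (hG : D.Good) {W : A0.G K → ℂ} (hW : D.IsWhit W)
    {C : Set (A0.G K)} (hC : IsCompact C) (g₀ : A0.G K) :
    ∃ U ∈ 𝓝 g₀, ∃ b : Kˣ → ℝ, Summable b ∧ (∀ α, 0 ≤ b α) ∧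
      ∀ (α : Kˣ) (g : A0.G K), g ∈ U → g ∈ C → ‖W (rdiag593 α 1 * g)‖ ≤ b α := by
  haveI : LocallyCompactSpace (A0.G K) := hT1.locComp.2.1
  by_cases h : ∃ α₀ : Kˣ, InGPlus D.t D.n (rdiag593 α₀ 1 * g₀)
  · obtain ⟨α₀, m₀, hadm₀⟩ := h
    obtain ⟨V, hVc, hV⟩ := exists_compact_mem_nhds m₀
    obtain ⟨U', hU', hU'sub⟩ := hopen K D.t D.n hG.torus.irred _ _ hadm₀ V hV
    obtain ⟨CDT, hCDT, hDTsub⟩ := hG.measured.dom_compact
    have hcont : Continuous fun g : A0.G K => rdiag593 α₀ 1 * g := continuous_const.mul continuous_id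
    set P : Set (A0.G K × A0.G K) := ((fun g : A0.G K => rdiag593 α₀ 1 * g) '' C) ×ˢ (CDT * V)
      with hPdef
    have hPc : IsCompact P := (hC.image hcont).prod (hCDT.mul hVc)
    obtain ⟨b', hb', hP⟩ := hG.regular.loc_summable P hPc
    have hfin : D.μT D.DT ≠ ⊤ :=
      ((measure_mono hDTsub).trans_lt (hG.measured.compact_lt CDT hCDT)).ne
    refine ⟨(fun g : A0.G K => rdiag593 α₀ 1 * g) ⁻¹' U', hcont.continuousAt.preimage_mem_nhds hU',
      fun α => (D.μT D.DT).toReal * fibSum593 D.t D.n b' (α * α₀⁻¹), ?_, ?_, ?_⟩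
    · have h1 : Summable (fun β : Kˣ => (D.μT D.DT).toReal * fibSum593 D.t D.n b' β) :=
        (fibSum_summable593 D.t D.n hb').mul_left _
      exact ((Equiv.mulRight α₀⁻¹).summable_iff).mpr h1
    · intro α
      exact mul_nonneg ENNReal.toReal_nonneg (fibSum_nonneg593 _ _ _ _)
    · intro α g hgU hgC
      obtain ⟨mg, hmgV, hadm⟩ := hU'sub _ hgU
      have hfac : rdiag593 α 1 * g = rdiag593 (α * α₀⁻¹) 1 * (rdiag593 α₀ 1 * g) := by
        rw [← mul_assoc, rdiag_mul593]; simp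
      rw [hfac]
      refine whit_bound593 hH hG hW hb' hP hfin hadm (fun m₁ hm₁ => ?_) _
      exact ⟨⟨g, hgC, rfl⟩, Set.mul_mem_mul (hDTsub hm₁) hmgV⟩
  · push Not at h
    refine ⟨(fun g : A0.G K => g₀⁻¹ * g) ⁻¹' {g : A0.G K | InGPlus D.t D.n g}, ?_, fun _ => 0,
      summable_zero, fun _ => le_rfl, ?_⟩
    · have hcont : Continuous fun g : A0.G K => g₀⁻¹ * g := continuous_const.mul continuous_id
      apply hcont.continuousAt.preimage_mem_nhds
      simp only [inv_mul_cancel]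
      exact gplus_nhds593 hopen hG.torus.irred
    · intro α g hgU _
      have hoff : ¬ InGPlus D.t D.n (rdiag593 α 1 * g) := by
        intro hplus
        apply h α
        have : rdiag593 α 1 * g₀ = rdiag593 α 1 * g * (g₀⁻¹ * g)⁻¹ := by group
        rw [this]
        exact inGPlus_mul593 hplus (inGPlus_inv593 hgU)
      rw [hW.off _ hoff, norm_zero]

/-- **A2.03.6b WHIT-SUM with Hasse** (Spec v2.1): normal summability of
`α ↦ W(diag(α, 1) g)` on the compact sets. -/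
theorem whitSumAtC593 : WL.WhitSumAtC := by
  intro hopen K _ _ D η hH hT1 hG _ W hW C hC
  choose U hU b hbs hbn hbound using fun g₀ => whit_local593 hopen hH hT1 hG hW hC g₀
  obtain ⟨s, -, hs⟩ := hC.elim_nhds_subcover U (fun x _ => hU x)
  refine ⟨fun α => ∑ x ∈ s, b x α, summable_sum fun x _ => hbs x, ?_⟩
  intro d hd α g hg
  obtain ⟨x, hxs, hgx⟩ : ∃ x ∈ s, g ∈ U x := by
    have := hs hg
    simpa only [Set.mem_iUnion, exists_prop] using this
  rw [isRatDiag_eq593 hd α]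
  exact (hbound x α g hgx hg).trans
    (Finset.single_le_sum (f := fun x => b x α) (fun i _ => hbn i α) hxs)

/-- **A2.03.6 WHIT-SUM** (Spec v1) from HASSE. -/
theorem whitSumC_of_hasse593 (hH : HasseNormC) : WL.WhitSumC :=
  fun hopen K _ _ D η hT1 hG hstd W hW =>
    whitSumAtC593 hopen K D η (hasseNormAt_of_hasseNormC hH K D.t D.n hG.torus.irred)
      hT1 hG hstd W hW

end Fermat.Agent.LT.A2.H593

end
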