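import Fermat.Agent.LT.A2.H593.Torus

/-!
# Row LT, tower A2, leaf A2.03.6 `WL.WhitSumC` (helper593) -- part 2: rational elements

OFF-MAIN.  The rational points of the torus as elements of `GL₂(𝔸_K)`, the rational diagonal
matrices, and the reduction of `F (diag(β,1) g) (m y m_g) (1,0)` to `F g (m m_g) ξ_β`
(`torK`, `diagK`).  Complete proofs, nothing assumed.
-/

set_option autoImplicit false

open IsDedekindDomain NumberField AutomorphicForm MeasureTheory
open scoped MatrixGroups Topology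

noncomputable section

namespace Fermat.Agent.LT.A2.H593

open Fermat.Agent.LT.H130 Fermat.Agent.LT.H556 Fermat.Agent.LT.A2

variable {K : Type} [Field K] [NumberField K]

local notation "ι" => algebraMap K (A0.Adl K)

theorem ι_injective593 : Function.Injective (algebraMap K (A0.Adl K)) :=
  NumberField.AdeleRing.algebraMap_injective (𝓞 K) K

theorem adl_nontrivial593 : Nontrivial (A0.Adl K) :=
  (ι_injective593 (K := K)).nontrivial

/-- The rational point `a + b ω` of the torus, `p = (a, b)`, as an element of `GL₂(𝔸_K)`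
(the junk value `1` if the norm of `p` vanishes). -/
def yel593 (t n : K) (p : K × K) : A0.G K :=
  haveI := Classical.dec ((torMat t n p.1 p.2).det ≠ 0)
  if h : (torMat t n p.1 p.2).det ≠ 0 then
    ratG (Matrix.GeneralLinearGroup.mkOfDetNeZero (torMat t n p.1 p.2) h)
  else 1

theorem yel_val593 {t n : K} {p : K × K} (h : qK593 t n p ≠ 0) :
    (yel593 t n p : Matrix (Fin 2) (Fin 2) (A0.Adl K))
      = torMat (ι t) (ι n) (ι p.1) (ι p.2) := by
  have h' : (torMat t n p.1 p.2).det ≠ 0 := by rw [torMat_det593]; exact h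
  rw [yel593, dif_pos h', ← torMat_map593]
  ext i j
  simp [ratG, Matrix.GeneralLinearGroup.map_apply, Matrix.GeneralLinearGroup.mkOfDetNeZero]

theorem yel_rat593 {t n : K} {p : K × K} (h : qK593 t n p ≠ 0) :
    InTorusRat t n (yel593 t n p) :=
  ⟨p.1, p.2, yel_val593 h⟩

theorem yel_det593 {t n : K} {p : K × K} (h : qK593 t n p ≠ 0) :
    ((Matrix.GeneralLinearGroup.det (yel593 t n p) : (A0.Adl K)ˣ) : A0.Adl K)
      = ι (qK593 t n p) := by
  rw [det_val593, yel_val593 h, torMat_det593]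
  simp [qK593]

theorem yel_tor1_593 {t n : K} {p : K × K} (h : qK593 t n p = 1) :
    InTorus1 t n (yel593 t n p) := by
  have h0 : qK593 t n p ≠ 0 := by rw [h]; exact one_ne_zero
  refine ⟨inTorus_of_rat593 (yel_rat593 h0), ?_⟩
  apply Units.ext
  rw [yel_det593 h0, h, map_one]; rfl

theorem yel_inj593 {t n : K} {p q : K × K} (hp : qK593 t n p ≠ 0) (hq : qK593 t n q ≠ 0)
    (h : yel593 t n p = yel593 t n q) : p = q := by
  have h1 : torMat (ι t) (ι n) (ι p.1) (ι p.2) = torMat (ι t) (ι n) (ι q.1) (ι q.2) := by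
    rw [← yel_val593 hp, ← yel_val593 hq, h]
  obtain ⟨h2, h3⟩ := torMat_inj593 h1
  exact Prod.ext (ι_injective593 h2) (ι_injective593 h3)

/-- Every rational point of the torus is a `yel593 t n p`. -/
theorem exists_yel593 {t n : K} {y : A0.G K} (h : InTorusRat t n y) :
    ∃ p : K × K, qK593 t n p ≠ 0 ∧ y = yel593 t n p := by
  obtain ⟨a, b, hab⟩ := h
  have hdet : ((Matrix.GeneralLinearGroup.det y : (A0.Adl K)ˣ) : A0.Adl K)
      = ι (qK593 t n (a, b)) := by
    rw [det_val593, hab, torMat_det593]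
    simp [qK593]
  have hne : qK593 t n (a, b) ≠ 0 := by
    intro h0
    rw [h0, map_zero] at hdet
    have := adl_nontrivial593 (K := K)
    exact (Matrix.GeneralLinearGroup.det y).ne_zero hdet
  refine ⟨(a, b), hne, ?_⟩
  apply Units.ext
  rw [yel_val593 hne, hab]

theorem actV_yel593 {t n : K} {p : K × K} (h : qK593 t n p ≠ 0) (ξ : K × K) :
    actV (yel593 t n p) (ratV ξ) = ratV (pact593 t n p ξ) := by
  rw [actV_torMat593 (yel_val593 h)]
  simp [ratV, pact593]

/-! ## Rational diagonal matrices -/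

/-- `diag(a, b)`, `a, b ∈ K^×`, as an element of `GL₂(𝔸_K)`. -/
def rdiag593 (a b : Kˣ) : A0.G K :=
  ratG (Matrix.GeneralLinearGroup.mkOfDetNeZero !![(a : K), 0; 0, (b : K)]
    (by simp [Matrix.det_fin_two]))

theorem rdiag_val593 (a b : Kˣ) :
    (rdiag593 a b : Matrix (Fin 2) (Fin 2) (A0.Adl K)) = !![ι (a : K), 0; 0, ι (b : K)] := by
  ext i j
  fin_cases i <;> fin_cases j <;>
    simp [rdiag593, ratG, Matrix.GeneralLinearGroup.map_apply,
      Matrix.GeneralLinearGroup.mkOfDetNeZero]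

theorem isRatDiag_eq593 {d : Kˣ → A0.G K} (hd : IsRatDiag d) (α : Kˣ) : d α = rdiag593 α 1 := by
  apply Units.ext
  rw [hd α, rdiag_val593]
  simp

theorem rdiag_mul593 (a b a' b' : Kˣ) :
    rdiag593 a b * rdiag593 a' b' = rdiag593 (a * a') (b * b') := by
  apply Units.ext
  rw [Units.val_mul, rdiag_val593, rdiag_val593, rdiag_val593]
  ext i j
  fin_cases i <;> fin_cases j <;> simp [Matrix.mul_apply, Fin.sum_univ_two]

theorem rdiag_det593 (a b : Kˣ) :
    ((Matrix.GeneralLinearGroup.det (rdiag593 a b) : (A0.Adl K)ˣ) : A0.Adl K)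
      = ι ((a : K) * (b : K)) := by
  rw [det_val593, rdiag_val593]
  simp [Matrix.det_fin_two]

theorem rdiag_isDiagOne593 (β : Kˣ) : IsDiagOne (rdiag593 1 β) (β : K) := by
  rw [IsDiagOne, rdiag_val593]; simp

theorem rdiag_isDiagSL593 (β : Kˣ) : IsDiagSL (rdiag593 β β⁻¹) (β : K) := by
  rw [IsDiagSL, rdiag_val593]; simp

/-! ## The reduction (`torK`, `diagK`) -/

/-- The vector `\bar p` of `K² = K[ω]`: the conjugate of `p = a + b ω`. -/
def conj593 (t : K) (p : K × K) : K × K := (p.1 + t * p.2, -p.2)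

omit [NumberField K] in
theorem pact_conj593 (t n : K) (p : K × K) :
    pact593 t n p (conj593 t p) = (qK593 t n p, 0) := by
  simp only [pact593, conj593, qK593]
  ext <;> (simp; ring)

omit [NumberField K] in
theorem qK_conj593 (t n : K) (p : K × K) : qK593 t n (conj593 t p) = qK593 t n p := by
  simp only [conj593, qK593]; ring

/-- **The reduction**: for an admissible pair `(g, m')`, `β = Q(p) ∈ K^×`:
`F (diag(β, 1) g) (y_p m') (1, 0) = F g m' \bar p`. -/
theorem F_rdiag593 {D : KData K} (hW : D.IsWeil) {g m' : A0.G K} (hadm : Adm D.t D.n g m')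
    (β : Kˣ) {p : K × K} (hp : qK593 D.t D.n p = (β : K)) :
    D.F (rdiag593 β 1 * g) (yel593 D.t D.n p * m') (1, 0) = D.F g m' (ratV (conj593 D.t p)) := by
  have hp0 : qK593 D.t D.n p ≠ 0 := by rw [hp]; exact β.ne_zero
  have hfac : rdiag593 β 1 = rdiag593 1 β * rdiag593 β β⁻¹ := by
    rw [rdiag_mul593]; simp
  have hadm' : Adm D.t D.n (rdiag593 β β⁻¹ * g) m' := by
    refine ⟨hadm.1, ?_⟩
    rw [map_mul, ← hadm.2]
    have : Matrix.GeneralLinearGroup.det (rdiag593 β β⁻¹ : A0.G K) = 1 := by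
      apply Units.ext
      rw [rdiag_det593]; simp
    rw [this, one_mul]
  rw [hfac, mul_assoc,
    hW.torK (yel593 D.t D.n p) (rdiag593 1 β) (β : K) (yel_rat593 hp0)
      (by rw [yel_det593 hp0, hp]) (rdiag_isDiagOne593 β) _ _ _ hadm',
    hW.diagK (rdiag593 β β⁻¹) (β : K) β.ne_zero (rdiag_isDiagSL593 β) _ _ _ hadm]
  congr 1
  -- `β • y_p⁻¹ (1, 0) = \bar p`
  have h1 : actV (yel593 D.t D.n p) (ratV (conj593 D.t p)) = ι (β : K) • ((1 : A0.Adl K), (0 : A0.Adl K)) := by
    rw [actV_yel593 hp0, pact_conj593, hp]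
    refine Prod.ext ?_ ?_
    · show ι (β : K) = ι (β : K) * 1
      rw [mul_one]
    · show ι (0 : K) = ι (β : K) * 0
      rw [mul_zero, map_zero]
  have h2 : actV (yel593 D.t D.n p)⁻¹ (ι (β : K) • ((1 : A0.Adl K), (0 : A0.Adl K)))
      = ratV (conj593 D.t p) := actV_inv_eq593 h1
  rw [← h2, actV_smul593]

end Fermat.Agent.LT.A2.H593

end
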