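import Fermat.Agent.LT.A2.WeilLocal

/-!
# Row LT, tower A2, leaf A2.03.6 `WL.WhitSumC` (helper593) -- part 1: algebra of the torus

OFF-MAIN.  The torus `T = {a + b M_ω}` inside `GL₂(𝔸_K)` is a commutative subgroup; its rational
points act on `K²` by the multiplication of `K[ω]`, the norm form `Q` is multiplicative and
anisotropic.  Complete proofs, nothing assumed.
-/

set_option autoImplicit false

open IsDedekindDomain NumberField AutomorphicForm MeasureTheory
open scoped MatrixGroups Topology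

noncomputable section

namespace Fermat.Agent.LT.A2.H593

open Fermat.Agent.LT.H130 Fermat.Agent.LT.H556 Fermat.Agent.LT.A2

/-! ## Matrices `a + b M_ω` over a commutative ring -/

section Mat

variable {R : Type*} [CommRing R]

theorem torMat_mul593 (t n a b a' b' : R) :
    torMat t n a b * torMat t n a' b'
      = torMat t n (a * a' - n * b * b') (a * b' + b * a' + t * b * b') := by
  ext i j
  fin_cases i <;> fin_cases j <;>
    simp [torMat, Matrix.mul_apply, Fin.sum_univ_two] <;> ring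

theorem torMat_det593 (t n a b : R) :
    (torMat t n a b).det = a ^ 2 + t * a * b + n * b ^ 2 := by
  simp [torMat, Matrix.det_fin_two]
  ring

theorem torMat_one593 (t n : R) : torMat t n 1 0 = 1 := by
  ext i j
  fin_cases i <;> fin_cases j <;> simp [torMat]

theorem torMat_inj593 {t n a b a' b' : R} (h : torMat t n a b = torMat t n a' b') :
    a = a' ∧ b = b' := by
  have h00 := congrFun (congrFun h 0) 0
  have h10 := congrFun (congrFun h 1) 0
  simp [torMat] at h00 h10
  exact ⟨h00, h10⟩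

theorem torMat_map593 {S : Type*} [CommRing S] (f : R →+* S) (t n a b : R) :
    (torMat t n a b).map f = torMat (f t) (f n) (f a) (f b) := by
  ext i j
  fin_cases i <;> fin_cases j <;> simp [torMat]

end Mat

/-! ## The torus in `GL₂(𝔸_K)` -/

section Torus

variable {K : Type} [Field K] [NumberField K]

local notation "ι" => algebraMap K (A0.Adl K)

theorem inTorus_one593 (t n : K) : InTorus t n (1 : A0.G K) :=
  ⟨1, 0, by rw [torMat_one593]; rfl⟩

theorem inTorus_mul593 {t n : K} {m m' : A0.G K} (h : InTorus t n m) (h' : InTorus t n m') :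
    InTorus t n (m * m') := by
  obtain ⟨a, b, hab⟩ := h
  obtain ⟨a', b', hab'⟩ := h'
  refine ⟨a * a' - ι n * b * b', a * b' + b * a' + ι t * b * b', ?_⟩
  rw [Units.val_mul, hab, hab', torMat_mul593]

theorem inTorus_comm593 {t n : K} {m m' : A0.G K} (h : InTorus t n m) (h' : InTorus t n m') :
    m * m' = m' * m := by
  obtain ⟨a, b, hab⟩ := h
  obtain ⟨a', b', hab'⟩ := h'
  apply Units.ext
  rw [Units.val_mul, Units.val_mul, hab, hab', torMat_mul593, torMat_mul593]
  congr 1 <;> ring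

theorem det_val593 (m : A0.G K) :
    ((Matrix.GeneralLinearGroup.det m : (A0.Adl K)ˣ) : A0.Adl K)
      = (m : Matrix (Fin 2) (Fin 2) (A0.Adl K)).det := rfl

theorem inTorus_inv593 {t n : K} {m : A0.G K} (h : InTorus t n m) : InTorus t n m⁻¹ := by
  obtain ⟨a, b, hab⟩ := h
  set δ : (A0.Adl K)ˣ := Matrix.GeneralLinearGroup.det m with hδ
  have hδv : (δ : A0.Adl K) = a ^ 2 + ι t * a * b + ι n * b ^ 2 := by
    rw [hδ, det_val593, hab, torMat_det593]
  set u : A0.Adl K := ((δ⁻¹ : (A0.Adl K)ˣ) : A0.Adl K) with hu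
  have huδ : u * (a ^ 2 + ι t * a * b + ι n * b ^ 2) = 1 := by
    rw [← hδv, hu]; exact Units.inv_mul δ
  refine ⟨u * (a + ι t * b), -(u * b), ?_⟩
  apply Units.inv_eq_of_mul_eq_one_right
  rw [hab, torMat_mul593, ← torMat_one593 (ι t) (ι n)]
  congr 1
  · linear_combination huδ
  · ring

/-- The rational points of the torus are points of the torus. -/
theorem inTorus_of_rat593 {t n : K} {m : A0.G K} (h : InTorusRat t n m) : InTorus t n m := by
  obtain ⟨a, b, hab⟩ := h
  exact ⟨ι a, ι b, hab⟩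

theorem inTorus1_one593 (t n : K) : InTorus1 t n (1 : A0.G K) :=
  ⟨inTorus_one593 t n, map_one _⟩

theorem inTorus1_mul593 {t n : K} {m m' : A0.G K} (h : InTorus1 t n m) (h' : InTorus1 t n m') :
    InTorus1 t n (m * m') :=
  ⟨inTorus_mul593 h.1 h'.1, by rw [map_mul, h.2, h'.2, one_mul]⟩

theorem inTorus1_inv593 {t n : K} {m : A0.G K} (h : InTorus1 t n m) : InTorus1 t n m⁻¹ :=
  ⟨inTorus_inv593 h.1, by rw [map_inv, h.2, inv_one]⟩

/-! ## `GL₂(𝔸_K)⁺` is a subgroup -/

theorem adm_one593 (t n : K) : Adm t n (1 : A0.G K) 1 := ⟨inTorus_one593 t n, rfl⟩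

theorem adm_mul593 {t n : K} {g g' m m' : A0.G K} (h : Adm t n g m) (h' : Adm t n g' m') :
    Adm t n (g * g') (m * m') :=
  ⟨inTorus_mul593 h.1 h'.1, by rw [map_mul, map_mul, h.2, h'.2]⟩

theorem adm_inv593 {t n : K} {g m : A0.G K} (h : Adm t n g m) : Adm t n g⁻¹ m⁻¹ :=
  ⟨inTorus_inv593 h.1, by rw [map_inv, map_inv, h.2]⟩

/-- Multiplying the partner by an element of the norm-one torus. -/
theorem adm_mul_tor1_593 {t n : K} {g m m' : A0.G K} (h : Adm t n g m) (h' : InTorus1 t n m') :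
    Adm t n g (m' * m) :=
  ⟨inTorus_mul593 h'.1 h.1, by rw [map_mul, h'.2, one_mul, h.2]⟩

theorem inGPlus_one593 (t n : K) : InGPlus t n (1 : A0.G K) := ⟨1, adm_one593 t n⟩

theorem inGPlus_mul593 {t n : K} {g g' : A0.G K} (h : InGPlus t n g) (h' : InGPlus t n g') :
    InGPlus t n (g * g') := by
  obtain ⟨m, hm⟩ := h
  obtain ⟨m', hm'⟩ := h'
  exact ⟨m * m', adm_mul593 hm hm'⟩

theorem inGPlus_inv593 {t n : K} {g : A0.G K} (h : InGPlus t n g) : InGPlus t n g⁻¹ := by
  obtain ⟨m, hm⟩ := h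
  exact ⟨m⁻¹, adm_inv593 hm⟩

/-! ## The action on `𝔸_K²` -/

theorem actV_one593 (ξ : A0.Adl K × A0.Adl K) : actV (1 : A0.G K) ξ = ξ := by
  simp [actV]

theorem actV_mul593 (m m' : A0.G K) (ξ : A0.Adl K × A0.Adl K) :
    actV (m * m') ξ = actV m (actV m' ξ) := by
  simp only [actV, Units.val_mul, Matrix.mul_apply, Fin.sum_univ_two]
  ext <;> simp <;> ring

theorem actV_smul593 (m : A0.G K) (c : A0.Adl K) (ξ : A0.Adl K × A0.Adl K) :
    actV m (c • ξ) = c • actV m ξ := by
  simp only [actV]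
  ext <;> simp <;> ring

theorem actV_inv_eq593 {m : A0.G K} {ξ ζ : A0.Adl K × A0.Adl K} (h : actV m ζ = ξ) :
    actV m⁻¹ ξ = ζ := by
  rw [← h, ← actV_mul593, inv_mul_cancel, actV_one593]

theorem actV_torMat593 {t n : K} {m : A0.G K} {a b : A0.Adl K}
    (h : (m : Matrix (Fin 2) (Fin 2) (A0.Adl K)) = torMat (ι t) (ι n) a b)
    (ξ : A0.Adl K × A0.Adl K) :
    actV m ξ = (a * ξ.1 - ι n * b * ξ.2, b * ξ.1 + (a + ι t * b) * ξ.2) := by
  simp only [actV, h, torMat]
  refine Prod.ext ?_ ?_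
  · simp
    try ring
  · simp
    try ring

end Torus

/-! ## The rational quadratic space `(K², Q)` -/

section Rat

variable {K : Type} [Field K]

/-- `Q(x, y) = x² + t x y + n y²` on `K²`. -/
def qK593 (t n : K) (ξ : K × K) : K := ξ.1 ^ 2 + t * ξ.1 * ξ.2 + n * ξ.2 ^ 2

/-- The multiplication of `K[ω]` in the basis `1, ω`. -/
def pact593 (t n : K) (p ξ : K × K) : K × K :=
  (p.1 * ξ.1 - n * p.2 * ξ.2, p.2 * ξ.1 + (p.1 + t * p.2) * ξ.2)

theorem qK_pact593 (t n : K) (p ξ : K × K) :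
    qK593 t n (pact593 t n p ξ) = qK593 t n p * qK593 t n ξ := by
  simp only [qK593, pact593]; ring

theorem pact_sub593 (t n : K) (p q ξ : K × K) :
    pact593 t n (p - q) ξ = pact593 t n p ξ - pact593 t n q ξ := by
  simp only [pact593, Prod.fst_sub, Prod.snd_sub, Prod.mk_sub_mk]
  ext <;> simp <;> ring

/-- `Q` is anisotropic when `X² - tX + n` has no root. -/
theorem qK_aniso593 {t n : K} (hirr : ∀ x : K, x ^ 2 - t * x + n ≠ 0) {ξ : K × K}
    (h : qK593 t n ξ = 0) : ξ = 0 := by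
  by_cases h2 : ξ.2 = 0
  · have h1 : ξ.1 = 0 := by
      have : ξ.1 ^ 2 = 0 := by simpa [qK593, h2] using h
      exact pow_eq_zero_iff (two_ne_zero) |>.mp this
    exact Prod.ext h1 h2
  · exfalso
    apply hirr (-ξ.1 / ξ.2)
    have : (-ξ.1 / ξ.2) ^ 2 - t * (-ξ.1 / ξ.2) + n = qK593 t n ξ / ξ.2 ^ 2 := by
      simp only [qK593]; field_simp; ring
    rw [this, h, zero_div]

theorem pact_injective593 {t n : K} (hirr : ∀ x : K, x ^ 2 - t * x + n ≠ 0) {ξ : K × K}
    (hξ : qK593 t n ξ ≠ 0) {p q : K × K} (h : pact593 t n p ξ = pact593 t n q ξ) : p = q := by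
  have h0 : pact593 t n (p - q) ξ = 0 := by rw [pact_sub593, h, sub_self]
  have h1 : qK593 t n (p - q) * qK593 t n ξ = 0 := by
    rw [← qK_pact593, h0]; simp [qK593]
  have h2 : qK593 t n (p - q) = 0 := (mul_eq_zero.mp h1).resolve_right hξ
  exact sub_eq_zero.mp (qK_aniso593 hirr h2)

end Rat

end Fermat.Agent.LT.A2.H593

end
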