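import Fermat.Agent.LT.A2.H593.RatTorus

/-!
# Row LT, tower A2, leaf A2.03.6 `WL.WhitSumC` (helper593) -- part 3: the unfolding bound

OFF-MAIN.  `T¹(𝔸) = ⨆_{y ∈ T¹(K)} y⁻¹ DT`, hence
`‖∫_{T¹(𝔸)} f‖ ≤ ∑_{y ∈ T¹(K)} vol(DT) sup_{DT} ‖f(y⁻¹ ·)‖`; applied to the orbital integral:
`‖W(diag(β, 1) g)‖ ≤ vol(DT) ∑_{Q(ξ) = β} b'(ξ)`.  Complete proofs, nothing assumed.
-/

set_option autoImplicit false
set_option linter.style.haveILetI false

open IsDedekindDomain NumberField AutomorphicForm MeasureTheory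
open scoped MatrixGroups Topology ENNReal

noncomputable section

namespace Fermat.Agent.LT.A2.H593

open Fermat.Agent.LT.H130 Fermat.Agent.LT.H556 Fermat.Agent.LT.A2

variable {K : Type} [Field K] [NumberField K]

local notation "ι" => algebraMap K (A0.Adl K)

theorem countable_nf593 : Countable K :=
  (Module.finBasis ℚ K).equivFun.toEquiv.injective.countable

/-- **Unfolding**: the integral over `T¹(𝔸_K)` is bounded by the sum over `T¹(K)` of the
suprema over the translates of the fundamental domain. -/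
theorem unfold_bound593 {D : KData K} (hM : D.IsMeasured) (f : A0.G K → ℂ)
    (c : K × K → ℝ≥0∞)
    (hf : ∀ p : K × K, qK593 D.t D.n p = 1 → ∀ m₁ ∈ D.DT,
      ‖f ((yel593 D.t D.n p)⁻¹ * m₁)‖ₑ ≤ c p) :
    ‖D.intT {m | InTorus1 D.t D.n m} f‖ₑ
      ≤ ∑' p : {p : K × K // qK593 D.t D.n p = 1}, c p.1 * D.μT D.DT := by
  letI : MeasurableSpace (A0.G K) := borel (A0.G K)
  haveI : BorelSpace (A0.G K) := ⟨rfl⟩
  haveI : Countable K := countable_nf593
  set S : {p : K × K // qK593 D.t D.n p = 1} → Set (A0.G K) :=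
    fun p => (fun m => (yel593 D.t D.n p.1)⁻¹ * m) '' D.DT with hS
  have hcover : {m | InTorus1 D.t D.n m} = ⋃ p, S p := by
    ext m
    simp only [Set.mem_ofPred_eq, Set.mem_iUnion]
    constructor
    · intro hm
      obtain ⟨y, ⟨hyrat, hy1, hyDT⟩, -⟩ := hM.dom_fund m hm
      obtain ⟨p, hp0, rfl⟩ := exists_yel593 hyrat
      have hp1 : qK593 D.t D.n p = 1 := by
        have h1 := yel_det593 hp0
        rw [hy1.2] at h1
        apply ι_injective593
        rw [← h1, map_one]; rfl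
      exact ⟨⟨p, hp1⟩, yel593 D.t D.n p * m, hyDT, by simp⟩
    · rintro ⟨p, m₁, hm₁, rfl⟩
      exact inTorus1_mul593 (inTorus1_inv593 (yel_tor1_593 p.2)) (hM.dom_sub m₁ hm₁)
  have hmeasS : ∀ p, MeasurableSet (S p) := by
    intro p
    have h := ((Homeomorph.mulLeft (yel593 D.t D.n p.1)⁻¹).toMeasurableEquiv).measurableSet_image
      (s := D.DT)
    exact h.mpr hM.dom_meas
  have hdisj : Pairwise (Function.onFun Disjoint S) := by
    intro p q hpq
    rw [Function.onFun, Set.disjoint_left]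
    rintro m ⟨m₁, hm₁, rfl⟩ ⟨m₂, hm₂, hm₂'⟩
    apply hpq
    have hp0 : qK593 D.t D.n p.1 ≠ 0 := by rw [p.2]; exact one_ne_zero
    have hq0 : qK593 D.t D.n q.1 ≠ 0 := by rw [q.2]; exact one_ne_zero
    have hm : InTorus1 D.t D.n ((yel593 D.t D.n p.1)⁻¹ * m₁) :=
      inTorus1_mul593 (inTorus1_inv593 (yel_tor1_593 p.2)) (hM.dom_sub m₁ hm₁)
    obtain ⟨y, -, hyu⟩ := hM.dom_fund _ hm
    have h1 := hyu (yel593 D.t D.n p.1) ⟨yel_rat593 hp0, yel_tor1_593 p.2, by simpa using hm₁⟩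
    have h2 := hyu (yel593 D.t D.n q.1) ⟨yel_rat593 hq0, yel_tor1_593 q.2, by
      have : (yel593 D.t D.n p.1)⁻¹ * m₁ = (yel593 D.t D.n q.1)⁻¹ * m₂ := hm₂'.symm
      rw [this]; simpa using hm₂⟩
    exact Subtype.ext (yel_inj593 hp0 hq0 (h1.trans h2.symm))
  calc ‖D.intT {m | InTorus1 D.t D.n m} f‖ₑ
      ≤ ∫⁻ m in {m | InTorus1 D.t D.n m}, ‖f m‖ₑ ∂D.μT :=
        enorm_integral_le_lintegral_enorm _
    _ = ∑' p, ∫⁻ m in S p, ‖f m‖ₑ ∂D.μT := by
        rw [hcover, lintegral_iUnion hmeasS hdisj]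
    _ ≤ ∑' p : {p : K × K // qK593 D.t D.n p = 1}, c p.1 * D.μT D.DT := by
        refine ENNReal.tsum_le_tsum fun p => ?_
        calc ∫⁻ m in S p, ‖f m‖ₑ ∂D.μT ≤ ∫⁻ _ in S p, c p.1 ∂D.μT :=
              setLIntegral_mono' (hmeasS p) (fun m hm => by
                obtain ⟨m₁, hm₁, rfl⟩ := hm
                exact hf p.1 p.2 m₁ hm₁)
          _ = c p.1 * D.μT (S p) := setLIntegral_const _ _
          _ = c p.1 * D.μT D.DT := by
              rw [hS]
              simp only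
              rw [hM.inv _ (inTorus1_inv593 (yel_tor1_593 p.2))]

end Fermat.Agent.LT.A2.H593

end
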